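import Fermat.Agent.S48.ModL.Defs
import Fermat.Agent.GAL.Cyclo
import Fermat.Agent.GAL.ModP.Cyclo

set_option autoImplicit false

/-!
# S48 / ModL : the mod `M` cyclotomic character and the determinant character
-/

noncomputable section

namespace Fermat.Agent.S48.ModL

open CongruenceSubgroup HK

/-- the mod `M` cyclotomic character. -/
def CycloM_chi (M : ℕ) [NeZero M] : GQ →* (ZMod M)ˣ :=
  (modularCyclotomicCharacter (AlgebraicClosure ℚ)
    (HasEnoughRootsOfUnity.natCard_rootsOfUnity (AlgebraicClosure ℚ) M)).comp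
    (MulSemiringAction.toRingAut GQ (AlgebraicClosure ℚ))

theorem CycloM_chi_eq_natCast (M : ℕ) [NeZero M] {σ : GQ} {a : ℕ}
    (h : ∀ t : AlgebraicClosure ℚ, t ^ M = 1 → σ t = t ^ a) :
    ((CycloM_chi M σ : (ZMod M)ˣ) : ZMod M) = (a : ZMod M) := by
  have h2 := modularCyclotomicCharacter.unique (AlgebraicClosure ℚ)
    (HasEnoughRootsOfUnity.natCard_rootsOfUnity (AlgebraicClosure ℚ) M)
    (MulSemiringAction.toRingAut GQ (AlgebraicClosure ℚ) σ) (c := (a : ZMod M)) (by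
      intro t ht
      have ht' : ((t : (AlgebraicClosure ℚ)ˣ) : AlgebraicClosure ℚ) ^ M = 1 := by
        have := (mem_rootsOfUnity _ _).mp ht
        rw [← Units.val_pow_eq_pow_val, this, Units.val_one]
      rw [ZMod.val_natCast, ← pow_eq_pow_mod a ht']
      exact h t ht')
  exact h2.symm

/-- The mod `M` cyclotomic character (`modularCyclotomicCharacter (AlgebraicClosure ℚ)` composed with
`MulSemiringAction.toRingAut`; compare `GAL/ModP/Cyclo.exists_cyclo` (prime level) and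
`GAL/Cyclo.lean`: `eq_of_sub_mem_nonunits` (reduction is injective on `m`-th roots of unity, any `m`
prime to the residue characteristic), `sub_pow_mem_of_isFrobeniusAt`, `sub_mem_of_mem_inertia`). -/
theorem exists_cycloM (M : ℕ) [NeZero M] :
    ∃ χ : GQ →* (ZMod M)ˣ, GaloisFactorsThroughFiniteLevel χ ∧
      ∀ p : ℕ, p.Prime → ¬ p ∣ M →
        ∀ A : ValuationSubring (AlgebraicClosure ℚ), A.LiesOverPrime p →
          (∀ σ : GQ, A.IsFrobeniusAt σ p → ((χ σ : (ZMod M)ˣ) : ZMod M) = (p : ZMod M)) ∧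
          (∀ σ ∈ A.inertiaSubgroupIn ℚ, χ σ = 1) := by
  have hM : M ≠ 0 := NeZero.ne M
  refine ⟨CycloM_chi M, ?_, ?_⟩
  · obtain ⟨ζ, hζ⟩ := HasEnoughRootsOfUnity.exists_primitiveRoot (AlgebraicClosure ℚ) M
    refine ⟨IntermediateField.adjoin ℚ {ζ}, IntermediateField.adjoin.finiteDimensional
      ((hζ.isIntegral (Nat.pos_of_neZero _)).tower_top), fun σ hσ => ?_⟩
    have hfix : σ ζ = ζ := hσ ζ (IntermediateField.mem_adjoin_simple_self ℚ ζ)
    have h1 : ((CycloM_chi M σ : (ZMod M)ˣ) : ZMod M) = ((1 : ℕ) : ZMod M) := by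
      refine CycloM_chi_eq_natCast M fun t ht => ?_
      obtain ⟨i, -, rfl⟩ := hζ.eq_pow_of_pow_eq_one ht
      rw [map_pow, hfix, pow_one]
    exact Units.ext (by simpa using h1)
  · intro p hp hpM A hA
    refine ⟨fun σ hσ => ?_, fun σ hσ => ?_⟩
    · refine CycloM_chi_eq_natCast M fun t ht => ?_
      have htA : t ∈ A := GAL.Cyclo.mem_of_pow_eq_one A hM ht
      refine GAL.Cyclo.eq_of_sub_mem_nonunits A hp hA hpM ?_ ?_
        (GAL.Cyclo.sub_pow_mem_of_isFrobeniusAt hσ htA)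
      · rw [← map_pow, ht, map_one]
      · rw [← pow_mul, mul_comm, pow_mul, ht, one_pow]
    · have h1 : ((CycloM_chi M σ : (ZMod M)ˣ) : ZMod M) = ((1 : ℕ) : ZMod M) := by
        refine CycloM_chi_eq_natCast M fun t ht => ?_
        have htA : t ∈ A := GAL.Cyclo.mem_of_pow_eq_one A hM ht
        rw [pow_one]
        refine GAL.Cyclo.eq_of_sub_mem_nonunits A hp hA hpM ?_ ht
          (GAL.Cyclo.sub_mem_of_mem_inertia hσ htA)
        rw [← map_pow, ht, map_one]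
      exact Units.ext (by simpa using h1)

variable {M : ℕ} [NeZero M] {κ : Type} [Field κ]

/-- `θ(⟨d d'⟩) = θ(⟨d⟩) θ(⟨d'⟩)`: the polynomial `⟨d d'⟩ - ⟨d⟩⟨d'⟩` kills `S_k` (`diamond_mul`). -/
theorem Occurs.dia_mul {k : ℤ} {θ : Idx M → κ} (hθ : Occurs M k θ) (d d' : (ZMod M)ˣ) :
    θ (Sum.inr (d * d')) = θ (Sum.inr d) * θ (Sum.inr d') := by
  have h := hθ (FreeAlgebra.ι ℤ (Sum.inr (d * d'))
    - FreeAlgebra.ι ℤ (Sum.inr d) * FreeAlgebra.ι ℤ (Sum.inr d')) (by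
      rw [map_sub, map_mul, opPoly, FreeAlgebra.lift_ι_apply, FreeAlgebra.lift_ι_apply,
        FreeAlgebra.lift_ι_apply]
      show diamond k (d * d') - diamond k d * diamond k d' = 0
      rw [diamond_mul, sub_eq_zero]
      rfl)
  rw [map_sub, map_mul, FreeAlgebra.lift_ι_apply, FreeAlgebra.lift_ι_apply,
    FreeAlgebra.lift_ι_apply, sub_eq_zero] at h
  exact h

theorem Occurs.dia_one {k : ℤ} {θ : Idx M → κ} (hθ : Occurs M k θ) : θ (Sum.inr 1) = 1 := by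
  have h := hθ (FreeAlgebra.ι ℤ (Sum.inr 1) - 1) (by
      rw [map_sub, map_one, opPoly, FreeAlgebra.lift_ι_apply]
      show diamond k 1 - 1 = 0
      rw [diamond_one, sub_eq_zero]
      rfl)
  rw [map_sub, map_one, FreeAlgebra.lift_ι_apply, sub_eq_zero] at h
  exact h

/-- **The determinant character** `d = ω_ℓ · θ(⟨χ_M⟩)`: `exists_cycloM`, `GAL.ModP.exists_cyclo`. -/
theorem exists_detChar {ℓ : ℕ} (hℓ : ℓ.Prime) [CharP κ ℓ] {k : ℤ} {θ : Idx M → κ}
    (hθ : Occurs M k θ) :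
    ∃ d : GQ →* κ, GaloisFactorsThroughFiniteLevel d ∧
      ∀ p : ℕ, p.Prime → ¬ p ∣ M * ℓ →
        ∀ A : ValuationSubring (AlgebraicClosure ℚ), A.LiesOverPrime p →
          (∀ σ : GQ, A.IsFrobeniusAt σ p → d σ = eOf θ p) ∧
          (∀ σ ∈ A.inertiaSubgroupIn ℚ, d σ = 1) := by
  obtain ⟨χ, ⟨L₁, hL₁, hχL⟩, hχ⟩ := exists_cycloM M
  obtain ⟨ω, ⟨L₂, hL₂, hωL⟩, hω⟩ := GAL.ModP.exists_cyclo ℓ hℓ κ
  let d : GQ →* κ :=
    { toFun := fun σ => ω σ * θ (Sum.inr (χ σ))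
      map_one' := by rw [map_one, map_one, Occurs.dia_one hθ, one_mul]
      map_mul' := by
        intro σ τ
        rw [map_mul, map_mul, Occurs.dia_mul hθ]
        ring }
  refine ⟨d, ⟨L₁ ⊔ L₂, IntermediateField.finiteDimensional_sup L₁ L₂, fun σ hσ => ?_⟩, ?_⟩
  · show ω σ * θ (Sum.inr (χ σ)) = 1
    rw [hχL σ (fun x hx => hσ x ((le_sup_left : L₁ ≤ L₁ ⊔ L₂) hx)),
      hωL σ (fun x hx => hσ x ((le_sup_right : L₂ ≤ L₁ ⊔ L₂) hx)), Occurs.dia_one hθ, one_mul]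
  · intro p hp hpMℓ A hA
    have hpM : ¬ p ∣ M := fun h => hpMℓ (Dvd.dvd.mul_right h ℓ)
    have hpℓ : p ≠ ℓ := by
      rintro rfl
      exact hpMℓ (Dvd.intro_left M rfl)
    refine ⟨fun σ hσ => ?_, fun σ hσ => ?_⟩
    · show ω σ * θ (Sum.inr (χ σ)) = eOf θ p
      have h1 : χ σ = GoodPrime.unit ⟨p, hp, hpM⟩ := by
        apply Units.ext
        rw [(hχ p hp hpM A hA).1 σ hσ, GoodPrime.coe_unit]
      rw [(hω p hp hpℓ A hA).1 σ hσ, h1]
      exact (eOf_good θ ⟨p, hp, hpM⟩).symm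
    · show ω σ * θ (Sum.inr (χ σ)) = 1
      rw [(hχ p hp hpM A hA).2 σ hσ, (hω p hp hpℓ A hA).2 σ hσ, Occurs.dia_one hθ, one_mul]

end Fermat.Agent.S48.ModL
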