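import Mathlib

set_option autoImplicit false

/-!
# S48 / ModL : the eigen-quotient  (pure algebra)

`W` a finite abelian group killed by `ℓ`, with a commuting family of endomorphisms `TW i` and an
action `ρ` of a group `G` commuting with them; `θ : I → κ` a system of eigenvalues in a field of
characteristic `ℓ` such that every `ℤ`-polynomial relation between the `TW i` holds for the `θ i`.
Then there is a non zero finite dimensional `κ`-representation `E` of `G`, "`= κ ⊗_𝕋 W`", on which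
`TW i` acts as `θ i`.
-/

namespace Fermat.Agent.S48.ModL

open scoped TensorProduct

/-- a non zero `T`-linear form `W → κ`. -/
theorem Eigen.exists_form {T : Type} [CommRing T] [Finite T] {W : Type} [AddCommGroup W]
    [Module T W] [Module.Finite T W] {κ : Type} [Field κ] (Θ : T →+* κ)
    (hΘ : ∀ t : T, (∀ w : W, t • w = 0) → Θ t = 0) :
    ∃ (f : W →+ κ) (w : W), (∀ (t : T) (x : W), f (t • x) = Θ t * f x) ∧ f w ≠ 0 := by
  set 𝔪 : Ideal T := RingHom.ker Θ with h𝔪
  have hprime : 𝔪.IsPrime := RingHom.ker_isPrime Θ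
  have hmax : 𝔪.IsMaximal := IsArtinianRing.isMaximal_of_isPrime 𝔪
  let _ : Field (T ⧸ 𝔪) := Ideal.Quotient.field 𝔪
  have hne : (𝔪 • ⊤ : Submodule T W) ≠ ⊤ := by
    intro htop
    obtain ⟨t, ht1, ht2⟩ := Submodule.exists_sub_one_mem_and_smul_eq_zero_of_fg_of_le_smul 𝔪
      (⊤ : Submodule T W) Module.Finite.fg_top (by rw [htop])
    have h0 : Θ t = 0 := hΘ t fun w => ht2 w trivial
    have h1 : Θ (t - 1) = 0 := ht1
    rw [map_sub, h0, map_one] at h1
    simp at h1
  have hnt : Nontrivial (W ⧸ (𝔪 • ⊤ : Submodule T W)) := Submodule.Quotient.nontrivial_iff.2 hne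
  obtain ⟨wb, hwb⟩ := exists_ne (0 : W ⧸ (𝔪 • ⊤ : Submodule T W))
  obtain ⟨w, rfl⟩ := Submodule.Quotient.mk_surjective _ wb
  have hdual : ∃ φ : Module.Dual (T ⧸ 𝔪) (W ⧸ (𝔪 • ⊤ : Submodule T W)),
      φ (Submodule.Quotient.mk w) ≠ 0 := by
    by_contra hcon
    push Not at hcon
    exact hwb ((Module.forall_dual_apply_eq_zero_iff (T ⧸ 𝔪) _).1 hcon)
  obtain ⟨φ, hφ⟩ := hdual
  refine ⟨{ toFun := fun x => RingHom.kerLift Θ (φ (Submodule.Quotient.mk x))
            map_zero' := by simp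
            map_add' := fun x y => by simp }, w, ?_, ?_⟩
  · intro t x
    show RingHom.kerLift Θ (φ (Submodule.Quotient.mk (t • x))) =
      Θ t * RingHom.kerLift Θ (φ (Submodule.Quotient.mk x))
    have h1 : (Submodule.Quotient.mk (t • x) : W ⧸ (𝔪 • ⊤ : Submodule T W)) =
        (Ideal.Quotient.mk 𝔪 t) • (Submodule.Quotient.mk x : W ⧸ (𝔪 • ⊤ : Submodule T W)) := rfl
    rw [h1, map_smul, smul_eq_mul, map_mul]
    rfl
  · intro h0
    exact hφ ((injective_iff_map_eq_zero (RingHom.kerLift Θ)).1 (RingHom.kerLift_injective Θ) _ h0)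

/-- the abstract form of the eigen-quotient. -/
theorem Eigen.abstract {T : Type} [CommRing T] [Finite T] {W : Type} [AddCommGroup W]
    [Module T W] [Module.Finite T W] {κ : Type} [Field κ] (Θ : T →+* κ)
    (hΘ : ∀ t : T, (∀ w : W, t • w = 0) → Θ t = 0) {G : Type} [Group G]
    (ρ : G →* Module.End T W) :
    ∃ (E : Type) (_ : AddCommGroup E) (_ : Module κ E) (_ : Module.Finite κ E) (_ : Nontrivial E)
      (r : G →* Module.End κ E),
      (∀ g, ρ g = 1 → r g = 1) ∧
      ∀ (g : G) (a b : T), ρ g * ρ g - a • ρ g + b • (1 : Module.End T W) = 0 →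
        r g * r g - Θ a • r g + Θ b • (1 : Module.End κ E) = 0 := by
  obtain ⟨f, w, hf, hw⟩ := Eigen.exists_form Θ hΘ
  let _ : Algebra T κ := Θ.toAlgebra
  have hsm : ∀ (t : T) (c : κ), t • c = Θ t * c := fun t c => rfl
  let fl : W →ₗ[T] κ :=
    { toFun := f
      map_add' := f.map_add
      map_smul' := fun t x => by rw [hf, RingHom.id_apply, hsm] }
  have hnt : Nontrivial (κ ⊗[T] W) := by
    refine nontrivial_of_ne ((1 : κ) ⊗ₜ[T] w) 0 fun h0 => hw ?_
    have h1 := congrArg (TensorProduct.lift ((LinearMap.mul T κ).compl₂ fl)) h0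
    rw [TensorProduct.lift.tmul, map_zero] at h1
    have h2 : fl w = 0 := by simpa using h1
    exact h2
  refine ⟨κ ⊗[T] W, inferInstance, inferInstance, inferInstance, hnt,
    ((Module.End.baseChangeHom T κ W : Module.End T W →ₐ[T] Module.End κ (κ ⊗[T] W)) :
      Module.End T W →* Module.End κ (κ ⊗[T] W)).comp ρ, ?_, ?_⟩
  · intro g hg
    rw [MonoidHom.comp_apply, hg, map_one]
  · intro g a b h
    have h1 := congrArg (Module.End.baseChangeHom T κ W) h
    rw [map_zero, map_add, map_sub, map_mul, map_smul, map_smul, map_one] at h1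
    have h2 : ∀ (t : T) (u : Module.End κ (κ ⊗[T] W)), t • u = Θ t • u := by
      intro t u
      rw [← algebraMap_smul κ t u]
      rfl
    rw [h2, h2] at h1
    exact h1

open scoped IsMulCommutative in
/-- PROOF.  `𝕋 := Algebra.adjoin ℤ (range TW) ⊆ End W`, commutative (`Algebra.adjoinCommRingOfComm`),
finite; `Θ : 𝕋 →+* κ` with `Θ (TW i) = θ i` (well defined by `hθ`: `𝕋` is the range of
`FreeAlgebra.lift ℤ TW`); `𝔪 = ker Θ`, `k₀ = 𝕋 ⧸ 𝔪` a finite field embedded in `κ` by `Θ`.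
`W ≠ 𝔪 W`: otherwise (`Submodule.exists_sub_one_mem_and_smul_eq_zero_of_fg_of_le_smul`) some
`t ∈ 1 + 𝔪` kills `W`, so `t = 0` in `End W`, `1 ∈ 𝔪`, absurd.  `W̄ = W ⧸ 𝔪 W` is a non zero finite
dimensional `k₀`-vector space, `ρ g` induces a `k₀`-linear map `ρ̄ g` of `W̄`.  Either put
`E = κ ⊗[k₀] W̄`, `r g = (ρ̄ g).baseChange κ`, or choose a basis of `W̄` and put `E = Fin n → κ`,
`r g = toLin' ((toMatrix b b (ρ̄ g)).map Θ̄)`.  `TW i` acts on `W̄` as the scalar `TW i mod 𝔪`. -/
theorem exists_eigen_quotient {ℓ : ℕ} (hℓ : ℓ.Prime) {W : Type} [AddCommGroup W] [Finite W]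
    (tors : ∀ x : W, ℓ • x = 0) {I G : Type} [Group G] (TW : I → AddMonoid.End W)
    (hcomm : ∀ i j, Commute (TW i) (TW j)) (ρ : G →* AddMonoid.End W)
    (hρ : ∀ g i, Commute (ρ g) (TW i)) {κ : Type} [Field κ] [CharP κ ℓ] (θ : I → κ)
    (hθ : ∀ P : FreeAlgebra ℤ I, FreeAlgebra.lift ℤ TW P = 0 → FreeAlgebra.lift ℤ θ P = 0) :
    ∃ (E : Type) (_ : AddCommGroup E) (_ : Module κ E) (_ : Module.Finite κ E) (_ : Nontrivial E)
      (r : G →* Module.End κ E),
      (∀ g, ρ g = 1 → r g = 1) ∧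
      ∀ (g : G) (i j : I) (c : ℕ), ρ g * ρ g - TW i * ρ g + c • TW j = 0 →
        r g * r g - θ i • r g + ((c : κ) * θ j) • (1 : Module.End κ E) = 0 := by
  classical
  set S : Subalgebra ℤ (AddMonoid.End W) := Algebra.adjoin ℤ (Set.range TW) with hS
  have hcommS : IsMulCommutative S := Algebra.isMulCommutative_adjoin ℤ (by
    rintro _ ⟨i, rfl⟩ _ ⟨j, rfl⟩
    exact hcomm i j)
  have hfinEnd : Finite (AddMonoid.End W) :=
    Finite.of_injective (fun f : AddMonoid.End W => (f : W → W)) DFunLike.coe_injective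
  have hfinS : Finite S := inferInstance
  have hsm : ∀ (s : S) (x : W), s • x = (s : AddMonoid.End W) x := fun s x => rfl
  let tw : I → S := fun i => ⟨TW i, Algebra.subset_adjoin ⟨i, rfl⟩⟩
  let f : FreeAlgebra ℤ I →ₐ[ℤ] S := FreeAlgebra.lift ℤ tw
  have hf : ∀ P, ((f P : S) : AddMonoid.End W) = FreeAlgebra.lift ℤ TW P := by
    intro P
    have : S.val.comp f = FreeAlgebra.lift ℤ TW := by
      apply FreeAlgebra.hom_ext
      funext i
      simp [f, tw]
    exact DFunLike.congr_fun this P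
  have hfs : Function.Surjective (f : FreeAlgebra ℤ I →+* S) := by
    intro s
    have h1 : (s : AddMonoid.End W) ∈ (FreeAlgebra.lift ℤ TW).range := by
      rw [← Algebra.adjoin_range_eq_range_freeAlgebra_lift]
      exact s.2
    obtain ⟨P, hP⟩ := h1
    exact ⟨P, Subtype.ext ((hf P).trans hP)⟩
  have hker : RingHom.ker (f : FreeAlgebra ℤ I →+* S) ≤
      RingHom.ker (FreeAlgebra.lift ℤ θ : FreeAlgebra ℤ I →+* κ) := by
    intro P hP
    have hP' : f P = 0 := hP
    have h1 : FreeAlgebra.lift ℤ TW P = 0 := by rw [← hf, hP']; rfl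
    exact hθ P h1
  let Θ : S →+* κ := RingHom.liftOfRightInverse (f : FreeAlgebra ℤ I →+* S) (Function.surjInv hfs)
    (Function.rightInverse_surjInv hfs) ⟨(FreeAlgebra.lift ℤ θ : FreeAlgebra ℤ I →+* κ), hker⟩
  have hΘf : ∀ P, Θ (f P) = FreeAlgebra.lift ℤ θ P := fun P =>
    RingHom.liftOfRightInverse_comp_apply (f : FreeAlgebra ℤ I →+* S) _ _ _ P
  have hΘtw : ∀ i, Θ (tw i) = θ i := by
    intro i
    have h1 := hΘf (FreeAlgebra.ι ℤ i)
    simpa [f] using h1
  have hΘ : ∀ t : S, (∀ w : W, t • w = 0) → Θ t = 0 := by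
    intro t ht
    have : t = 0 := by
      apply Subtype.ext
      ext w
      exact ht w
    rw [this, map_zero]
  have hcomS : ∀ (g : G) (s : S), Commute (ρ g) (s : AddMonoid.End W) := fun g s =>
    Algebra.commute_of_mem_adjoin_of_forall_mem_commute s.2 (by
      rintro _ ⟨i, rfl⟩
      exact hρ g i)
  let ρ' : G →* Module.End S W :=
    { toFun := fun g =>
        { toFun := ρ g
          map_add' := (ρ g).map_add
          map_smul' := fun s x => DFunLike.congr_fun (hcomS g s).eq x }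
      map_one' := by
        ext x
        simp
      map_mul' := fun g h => by
        ext x
        simp only [map_mul]
        rfl }
  have hρ' : ∀ g x, ρ' g x = ρ g x := fun g x => rfl
  obtain ⟨E, i1, i2, i3, i4, r, hr1, hr2⟩ := Eigen.abstract Θ hΘ ρ'
  refine ⟨E, i1, i2, i3, i4, r, ?_, ?_⟩
  · intro g hg
    apply hr1
    ext x
    rw [hρ', hg]
    rfl
  · intro g i j c h
    have h1 := hr2 g (tw i) (c • tw j) (by
      ext x
      have h2 := DFunLike.congr_fun h x
      exact h2)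
    rw [hΘtw, map_nsmul, hΘtw, nsmul_eq_mul] at h1
    exact h1

end Fermat.Agent.S48.ModL
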