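import Fermat.Agent.S48.ModL.Defs
import Fermat.Agent.GAL.ModP.Glue

set_option autoImplicit false

/-!
# S48 / ModL : gluing of Frobenius systems (port of `GAL/ModP/Glue.lean` to a general determinant)
-/

noncomputable section

namespace Fermat.Agent.S48.ModL

open Polynomial Fermat.Agent.Lib.QuadRep HK

variable {κ : Type} [Field κ] {a e : ℕ → κ}

/-- The quadratic relation. -/
def FrobSys1.Rel (S : FrobSys1 κ a e) (d : GQ →* κ) (g : GQ) (t : κ) : Prop :=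
  S.r g * S.r g - t • S.r g + d g • (1 : Module.End κ S.E) = 0

theorem FrobSys1.Rel.unique {S : FrobSys1 κ a e} {d : GQ →* κ} {g : GQ} {t t' : κ}
    (h : S.Rel d g t) (h' : S.Rel d g t') : t = t' := by
  unfold FrobSys1.Rel at h h'
  have h1 : (t - t') • S.r g = 0 := by
    rw [sub_smul]
    have : (S.r g * S.r g - t' • S.r g + d g • (1 : Module.End κ S.E)) -
        (S.r g * S.r g - t • S.r g + d g • (1 : Module.End κ S.E)) = 0 := by rw [h, h', sub_zero]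
    rw [← this]
    abel
  have h2 : (t - t') • (1 : Module.End κ S.E) = 0 := by
    have : S.r g * S.r g⁻¹ = 1 := by rw [← map_mul, mul_inv_cancel, map_one]
    rw [← this, ← smul_mul_assoc, h1, zero_mul]
  rcases smul_eq_zero.1 h2 with h3 | h3
  · exact sub_eq_zero.1 h3
  · exact absurd h3 one_ne_zero

theorem FrobSys1.exists_rel (hdens : Fermat.Agent.GAL.FrobeniusDensity) (d : GQ →* κ)
    (hdlevel : GaloisFactorsThroughFiniteLevel d) (Bd : Finset ℕ)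
    (hdfrob : ∀ p : ℕ, p.Prime → p ∉ Bd →
      ∀ A : ValuationSubring (AlgebraicClosure ℚ), A.LiesOverPrime p →
        ∀ σ : GQ, A.IsFrobeniusAt σ p → d σ = e p)
    (S S' : FrobSys1 κ a e) (g : GQ) : ∃ t : κ, S.Rel d g t ∧ S'.Rel d g t := by
  obtain ⟨L1, hL1, h1⟩ := S.level
  obtain ⟨L2, hL2, h2⟩ := S'.level
  obtain ⟨L3, hL3, h3⟩ := hdlevel
  obtain ⟨ℓ, A, σ, b, hℓ, hℓB, hA, hσ, hb⟩ := hdens (L1 ⊔ L2 ⊔ L3) inferInstance g
    (S.B ∪ S'.B ∪ Bd)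
  simp only [Finset.mem_union, not_or] at hℓB
  obtain ⟨⟨hB, hB'⟩, hℓp⟩ := hℓB
  have e1 : S.r (σ ^ b) = S.r g := Fermat.Agent.GAL.ModP.eq_of_level S.r L1 h1 g (σ ^ b)
    fun x hx => hb x ((le_sup_left.trans le_sup_left : L1 ≤ L1 ⊔ L2 ⊔ L3) hx)
  have e2 : S'.r (σ ^ b) = S'.r g := Fermat.Agent.GAL.ModP.eq_of_level S'.r L2 h2 g (σ ^ b)
    fun x hx => hb x ((le_sup_right.trans le_sup_left : L2 ≤ L1 ⊔ L2 ⊔ L3) hx)
  have e3 : d (σ ^ b) = d g := Fermat.Agent.GAL.ModP.eq_of_level d L3 h3 g (σ ^ b)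
    fun x hx => hb x ((le_sup_right : L3 ≤ L1 ⊔ L2 ⊔ L3) hx)
  have r1 := S.frob ℓ hℓ hB A hA σ hσ
  have r2 := S'.frob ℓ hℓ hB' A hA σ hσ
  have r12 : ((S.r σ, S'.r σ) : Module.End κ S.E × Module.End κ S'.E) * (S.r σ, S'.r σ)
      - a ℓ • (S.r σ, S'.r σ) + e ℓ • (1 : Module.End κ S.E × Module.End κ S'.E) = 0 :=
    Prod.ext r1 r2
  obtain ⟨t, ht⟩ := quadratic_pow _ _ _ r12 b
  have hd : d g = e ℓ ^ b := by rw [← e3, map_pow, hdfrob ℓ hℓ hℓp A hA σ hσ]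
  refine ⟨t, ?_, ?_⟩
  · have := congrArg Prod.fst ht
    unfold FrobSys1.Rel
    rw [← e1, map_pow, hd]
    exact this
  · have := congrArg Prod.snd ht
    unfold FrobSys1.Rel
    rw [← e2, map_pow, hd]
    exact this

/-- **Gluing theorem.**  PORT of `GAL.ModP.exists_residual_of_frobSys` (read `GAL/ModP/Glue.lean`):
replace `(ℓ : k)` by `e ℓ`, the condition `ℓ ≠ p` by `ℓ ∉ Bd`; in addition export the kernel property
(last clause of `Lib.QuadRep.exists_two_dim`). -/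
theorem exists_residual_of_frobSys1 (hdens : Fermat.Agent.GAL.FrobeniusDensity) [IsAlgClosed κ]
    (d : GQ →* κ) (hdlevel : GaloisFactorsThroughFiniteLevel d) (Bd : Finset ℕ)
    (hdfrob : ∀ p : ℕ, p.Prime → p ∉ Bd →
      ∀ A : ValuationSubring (AlgebraicClosure ℚ), A.LiesOverPrime p →
        ∀ σ : GQ, A.IsFrobeniusAt σ p → d σ = e p)
    (hdinert : ∀ p : ℕ, p.Prime → p ∉ Bd →
      ∀ A : ValuationSubring (AlgebraicClosure ℚ), A.LiesOverPrime p →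
        ∀ σ ∈ A.inertiaSubgroupIn ℚ, d σ = 1)
    (S0 : FrobSys1 κ a e)
    (hsys : ∀ q : ℕ, q.Prime → q ∉ Bd → ∃ S : FrobSys1 κ a e, q ∉ S.B) :
    ∃ ρ : ResidualGaloisRep κ, KerProp ρ.ρ ∧
      (∀ p : ℕ, p.Prime → p ∉ Bd →
        ∀ A : ValuationSubring (AlgebraicClosure ℚ), A.LiesOverPrime p →
          ∀ σ : GQ, A.IsFrobeniusAt σ p →
            LinearMap.charpoly (ρ.ρ σ) = X ^ 2 - C (a p) * X + C (e p)) ∧
      (∀ p : ℕ, p.Prime → p ∉ Bd → ρ.IsUnramifiedAt p) := by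
  have hq : ∀ g, ∃ t : κ, S0.r g * S0.r g - t • S0.r g + d g • (1 : Module.End κ S0.E) = 0 := by
    intro g
    obtain ⟨t, ht, -⟩ := FrobSys1.exists_rel hdens d hdlevel Bd hdfrob S0 S0 g
    exact ⟨t, ht⟩
  obtain ⟨V, iV1, iV2, iV3, ρ', hfin, hone, hchar, hker⟩ := exists_two_dim S0.r d hq
  have hlevel : GaloisFactorsThroughFiniteLevel ρ' := by
    obtain ⟨L1, hL1, h1⟩ := S0.level
    obtain ⟨L3, hL3, h3⟩ := hdlevel
    refine ⟨L1 ⊔ L3, inferInstance, fun σ hσ => hone σ ?_ ?_⟩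
    · exact h1 σ fun x hx => hσ x ((le_sup_left : L1 ≤ L1 ⊔ L3) hx)
    · exact h3 σ fun x hx => hσ x ((le_sup_right : L3 ≤ L1 ⊔ L3) hx)
  refine ⟨{ V := V, finrank_eq := hfin, ρ := ρ', factorsThroughFiniteLevel := hlevel }, hker,
    ?_, ?_⟩
  · intro ℓ hℓ hgood A hA σ hσ
    obtain ⟨S, hS⟩ := hsys ℓ hℓ hgood
    obtain ⟨t, ht0, ht⟩ := FrobSys1.exists_rel hdens d hdlevel Bd hdfrob S0 S σ
    have hrel : S.Rel d σ (a ℓ) := by
      unfold FrobSys1.Rel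
      rw [hdfrob ℓ hℓ hgood A hA σ hσ]
      exact S.frob ℓ hℓ hS A hA σ hσ
    have htt : t = a ℓ := ht.unique hrel
    have := hchar σ t ht0
    rw [htt, hdfrob ℓ hℓ hgood A hA σ hσ] at this
    exact this
  · intro ℓ hℓ hgood A hA h hh
    obtain ⟨S, hS⟩ := hsys ℓ hℓ hgood
    have hr1 : S.r h = 1 := S.unram ℓ hℓ hS A hA h hh
    have hd1 : d h = 1 := hdinert ℓ hℓ hgood A hA h hh
    apply hker
    intro g
    obtain ⟨t, ht0, ht⟩ := FrobSys1.exists_rel hdens d hdlevel Bd hdfrob S0 S g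
    obtain ⟨t', ht0', ht'⟩ := FrobSys1.exists_rel hdens d hdlevel Bd hdfrob S0 S (g * h)
    have ht'' : S.Rel d g t' := by
      unfold FrobSys1.Rel at ht' ⊢
      rwa [map_mul, map_mul, hr1, hd1, mul_one, mul_one] at ht'
    have htt : t' = t := ht''.unique ht
    rw [hchar g t ht0, hchar (g * h) t' ht0', htt, map_mul, hd1, mul_one]

end Fermat.Agent.S48.ModL
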