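import Fermat.Agent.S48.ModL.Defs

set_option autoImplicit false

/-!
# S48 / ModL : an eigensystem occurring at level `M` occurs at every multiple `M'` of `M`
-/

noncomputable section

namespace Fermat.Agent.S48.ModL

open CongruenceSubgroup HK UpperHalfPlane
open scoped MatrixGroups ModularForm

variable {M M' : ℕ} [NeZero M] [NeZero M']

/-- the map of index sets. -/
def idxMap (h : M ∣ M') : Idx M' → Idx M :=
  Sum.map (fun p => ⟨p.1, p.2.1, fun hd => p.2.2 (hd.trans h)⟩) (ZMod.unitsMap h)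

omit [NeZero M] [NeZero M'] in
/-- reduction `ZMod M' → ZMod M` of an integer. -/
theorem LevelRaise_cast (h : M ∣ M') {a : ℤ} {b : ZMod M'} (hab : (a : ZMod M') = b) :
    (a : ZMod M) = ZMod.castHom h (ZMod M) b := by
  rw [← hab, map_intCast]

theorem Gamma1_le_of_dvd (h : M ∣ M') : Gamma1 M' ≤ Gamma1 M := by
  intro γ hγ
  rw [Gamma1_mem] at hγ ⊢
  refine ⟨?_, ?_, ?_⟩
  · rw [LevelRaise_cast h hγ.1, map_one]
  · rw [LevelRaise_cast h hγ.2.1, map_one]
  · rw [LevelRaise_cast h hγ.2.2, map_zero]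

omit [NeZero M] [NeZero M'] in
theorem LevelRaise_Gamma0_le (h : M ∣ M') : Gamma0 M' ≤ Gamma0 M := by
  intro γ hγ
  rw [Gamma0_mem] at hγ ⊢
  rw [LevelRaise_cast h hγ, map_zero]

/-- the inclusion `S_k(Γ₁(M)) ⊆ S_k(Γ₁(M'))`. -/
theorem exists_incl (h : M ∣ M') (k : ℤ) :
    ∃ ι : CuspForm (Gamma1 M) k →ₗ[ℂ] CuspForm (Gamma1 M') k, ∀ f, ⇑(ι f) = ⇑f := by
  have hle : (Gamma1 M' : Subgroup (GL (Fin 2) ℝ)) ≤ (Gamma1 M : Subgroup (GL (Fin 2) ℝ)) :=
    Subgroup.map_mono (Gamma1_le_of_dvd h)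
  refine ⟨{ toFun := fun f =>
              { toFun := f
                slash_action_eq' := fun γ hγ => f.slash_action_eq' γ (hle hγ)
                holo' := f.holo'
                zero_at_cusps' := fun hc => f.zero_at_cusps' (hc.mono hle) }
            map_add' := fun f g => rfl
            map_smul' := fun c f => rfl }, fun f => rfl⟩

/-- the inclusion is Hecke equivariant: for `⟨d⟩` use `coe_diamond` at level `M'`,
`diaRep M' d ∈ Γ₀(M') ≤ Γ₀(M)` and `slash_eq_diamond` at level `M`; for `T_p` use `coe_heckeT'`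
at both levels and the case of `⟨p⟩`. -/
theorem incl_op (h : M ∣ M') (k : ℤ) (ι : CuspForm (Gamma1 M) k →ₗ[ℂ] CuspForm (Gamma1 M') k)
    (hι : ∀ f, ⇑(ι f) = ⇑f) (i : Idx M') (f : CuspForm (Gamma1 M) k) :
    op k i (ι f) = ι (op k (idxMap h i) f) := by
  have hdia : ∀ d : (ZMod M')ˣ, ⇑(diamond k d (ι f)) = ⇑(diamond k (ZMod.unitsMap h d) f) := by
    intro d
    rw [coe_diamond, hι]
    exact slash_eq_diamond f (LevelRaise_Gamma0_le h (diaRep_mem M' d)) _
      (LevelRaise_cast h (diaRep_apply M' d))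
  apply DFunLike.coe_injective
  rw [hι]
  rcases i with p | d
  · have hunit : ZMod.unitsMap h p.unit =
        GoodPrime.unit (M := M) ⟨p.1, p.2.1, fun hd => p.2.2 (hd.trans h)⟩ := by
      apply Units.ext
      rw [GoodPrime.coe_unit]
      show ZMod.castHom h (ZMod M) ((p.unit : (ZMod M')ˣ) : ZMod M') = _
      rw [GoodPrime.coe_unit, map_natCast]
    show ⇑(heckeT k p (ι f)) =
      ⇑(heckeT k (⟨p.1, p.2.1, fun hd => p.2.2 (hd.trans h)⟩ : GoodPrime M) f)
    rw [coe_heckeT', coe_heckeT', hdia, hι, hunit]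
  · exact hdia d

/-- `FreeAlgebra.induction`; `FreeAlgebra.map`-like substitution
`FreeAlgebra.lift ℤ (fun i => FreeAlgebra.ι ℤ (idxMap h i))`. -/
theorem Occurs.raise (h : M ∣ M') {k : ℤ} {κ : Type*} [CommRing κ] {θ : Idx M → κ}
    (hθ : Occurs M k θ) : Occurs M' k (θ ∘ idxMap h) := by
  obtain ⟨ι, hι⟩ := exists_incl h k
  have hinj : Function.Injective ι := by
    intro f g hfg
    apply DFunLike.coe_injective
    rw [← hι f, ← hι g, hfg]
  let s : FreeAlgebra ℤ (Idx M') →ₐ[ℤ] FreeAlgebra ℤ (Idx M) :=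
    FreeAlgebra.lift ℤ (fun i => FreeAlgebra.ι ℤ (idxMap h i))
  have h1 : FreeAlgebra.lift ℤ (θ ∘ idxMap h) = (FreeAlgebra.lift ℤ θ).comp s := by
    apply FreeAlgebra.hom_ext
    funext i
    simp [s]
  have h2 : ∀ (P : FreeAlgebra ℤ (Idx M')) (f : CuspForm (Gamma1 M) k),
      opPoly (M := M') k P (ι f) = ι (opPoly (M := M) k (s P) f) := by
    intro P
    induction P using FreeAlgebra.induction with
    | grade0 r =>
      intro f
      rw [AlgHom.commutes, AlgHom.commutes, AlgHom.commutes, Module.algebraMap_end_apply,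
        Module.algebraMap_end_apply, map_zsmul]
    | grade1 i =>
      intro f
      have e1 : opPoly (M := M') k (FreeAlgebra.ι ℤ i) = op k i := FreeAlgebra.lift_ι_apply _ _
      have e2 : s (FreeAlgebra.ι ℤ i) = FreeAlgebra.ι ℤ (idxMap h i) :=
        FreeAlgebra.lift_ι_apply _ _
      have e3 : opPoly (M := M) k (FreeAlgebra.ι ℤ (idxMap h i)) = op k (idxMap h i) :=
        FreeAlgebra.lift_ι_apply _ _
      rw [e1, e2, e3, incl_op h k ι hι]
    | mul a b ha hb =>
      intro f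
      rw [map_mul, map_mul, map_mul, Module.End.mul_apply, Module.End.mul_apply, hb, ha]
    | add a b ha hb =>
      intro f
      rw [map_add, map_add, map_add, LinearMap.add_apply, LinearMap.add_apply, ha, hb, map_add]
  intro P hP
  rw [h1, AlgHom.comp_apply]
  apply hθ
  apply LinearMap.ext
  intro f
  apply hinj
  rw [← h2, hP, LinearMap.zero_apply, LinearMap.zero_apply, map_zero]

end Fermat.Agent.S48.ModL
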