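import Fermat.Agent.S48.ModL.Defs

set_option autoImplicit false

/-!
# S48 / ModL : the Galois span `V₁` of `e(lattice)` in `V`

`V₁` is stable under `G_ℚ`, `T p`, `R p`, and the Hecke operators commute on it.
-/

noncomputable section

namespace Fermat.Agent.S48.ModL

open CongruenceSubgroup HK

variable {M ℓ : ℕ} [NeZero M] (D : ESDatum1 M ℓ)

/-- the subgroup generated by the Galois translates of `e(lattice)`. -/
def V1 : AddSubgroup D.V :=
  AddSubgroup.closure {v | ∃ (σ : GQ) (x : Fin D.r → ZMod ℓ), v = σ • D.e x}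

theorem e_mem_V1 (x : Fin D.r → ZMod ℓ) : D.e x ∈ V1 D :=
  AddSubgroup.subset_closure ⟨1, x, (one_smul _ _).symm⟩

/-- induction principle for `V₁`. -/
theorem Span_V1_induction {p : D.V → Prop}
    (hgen : ∀ (σ : GQ) (x : Fin D.r → ZMod ℓ), p (σ • D.e x)) (h0 : p 0)
    (hadd : ∀ a b, p a → p b → p (a + b)) (hneg : ∀ a, p a → p (-a)) {v : D.V}
    (hv : v ∈ V1 D) : p v := by
  refine AddSubgroup.closure_induction (p := fun v _ => p v) ?_ h0 (fun a b _ _ => hadd a b)
    (fun a _ => hneg a) hv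
  rintro _ ⟨σ, x, rfl⟩
  exact hgen σ x

/-- two additive maps which agree on the generators agree on `V₁`. -/
theorem Span_hom_eq {W : Type*} [AddCommGroup W] (f g : D.V →+ W)
    (h : ∀ (σ : GQ) (x : Fin D.r → ZMod ℓ), f (σ • D.e x) = g (σ • D.e x)) {v : D.V}
    (hv : v ∈ V1 D) : f v = g v := by
  refine Span_V1_induction D (p := fun v => f v = g v) h ?_ ?_ ?_ hv
  · rw [map_zero, map_zero]
  · intro a b ha hb
    rw [map_add, map_add, ha, hb]
  · intro a ha
    rw [map_neg, map_neg, ha]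

theorem Span_TV_smul (i : J M) (σ : GQ) (x : D.V) : D.TV i (σ • x) = σ • D.TV i x := by
  rcases i with p | p
  · exact D.T_smul p σ x
  · exact D.R_smul p σ x

theorem Span_TV_e (i : J M) (x : Fin D.r → ZMod ℓ) :
    D.TV i (D.e x) = D.e (((D.TL i).map (Int.castRingHom (ZMod ℓ))).mulVec x) := by
  rcases i with p | p
  · exact (D.e_T p x).symm
  · exact (D.e_R p x).symm

theorem Span_TL_comm (i j : J M) : Commute (D.TL i) (D.TL j) := by
  rcases i with p | p <;> rcases j with q | q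
  · exact D.TT_comm p q
  · exact D.TR_comm p q
  · exact (D.TR_comm q p).symm
  · exact D.RR_comm p q

theorem rho_mem_V1 (σ : GQ) {v : D.V} (hv : v ∈ V1 D) : D.rho σ v ∈ V1 D := by
  refine Span_V1_induction D (p := fun v => D.rho σ v ∈ V1 D) ?_ ?_ ?_ ?_ hv
  · intro τ x
    rw [ESDatum1.rho_apply, ← mul_smul]
    exact AddSubgroup.subset_closure ⟨σ * τ, x, rfl⟩
  · rw [map_zero]
    exact zero_mem _
  · intro a b ha hb
    rw [map_add]
    exact add_mem ha hb
  · intro a ha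
    rw [map_neg]
    exact neg_mem ha

/-- `T (σ • e x) = σ • T (e x) = σ • e (TΛ x)`. -/
theorem TV_mem_V1 (i : J M) {v : D.V} (hv : v ∈ V1 D) : D.TV i v ∈ V1 D := by
  refine Span_V1_induction D (p := fun v => D.TV i v ∈ V1 D) ?_ ?_ ?_ ?_ hv
  · intro τ x
    rw [Span_TV_smul, Span_TV_e]
    exact AddSubgroup.subset_closure ⟨τ, _, rfl⟩
  · rw [map_zero]
    exact zero_mem _
  · intro a b ha hb
    rw [map_add]
    exact add_mem ha hb
  · intro a ha
    rw [map_neg]
    exact neg_mem ha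

/-- the Hecke operators on `V₁`. -/
def TV1 (i : J M) : AddMonoid.End (V1 D) :=
  ((D.TV i : D.V →+ D.V).comp (V1 D).subtype).codRestrict (V1 D) (fun v => TV_mem_V1 D i v.2)

/-- the Galois action on `V₁`. -/
def rho1 : GQ →* AddMonoid.End (V1 D) where
  toFun σ := ((D.rho σ : D.V →+ D.V).comp (V1 D).subtype).codRestrict (V1 D)
    (fun v => rho_mem_V1 D σ v.2)
  map_one' := by
    ext v
    show D.rho 1 (v : D.V) = v
    rw [ESDatum1.rho_apply, one_smul]
  map_mul' σ τ := by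
    ext v
    show D.rho (σ * τ) (v : D.V) = D.rho σ (D.rho τ (v : D.V))
    rw [ESDatum1.rho_apply, ESDatum1.rho_apply, ESDatum1.rho_apply, mul_smul]

theorem coe_TV1 (i : J M) (v : V1 D) : ((TV1 D i v : V1 D) : D.V) = D.TV i v := rfl

theorem coe_rho1 (σ : GQ) (v : V1 D) : ((rho1 D σ v : V1 D) : D.V) = σ • (v : D.V) := rfl

/-- on generators `σ • e x`: `T_i T_j (σ • e x) = σ • e (TL_i TL_j x)` and the matrices commute. -/
theorem TV1_comm (i j : J M) : Commute (TV1 D i) (TV1 D j) := by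
  show TV1 D i * TV1 D j = TV1 D j * TV1 D i
  ext v
  show D.TV i (D.TV j (v : D.V)) = D.TV j (D.TV i (v : D.V))
  refine Span_hom_eq D ((D.TV i : D.V →+ D.V).comp (D.TV j : D.V →+ D.V))
    ((D.TV j : D.V →+ D.V).comp (D.TV i : D.V →+ D.V)) ?_ v.2
  intro σ x
  show D.TV i (D.TV j (σ • D.e x)) = D.TV j (D.TV i (σ • D.e x))
  rw [Span_TV_smul, Span_TV_smul, Span_TV_smul, Span_TV_smul, Span_TV_e, Span_TV_e, Span_TV_e,
    Span_TV_e, Matrix.mulVec_mulVec, Matrix.mulVec_mulVec, ← Matrix.map_mul, ← Matrix.map_mul,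
    (Span_TL_comm D i j).eq]

theorem rho1_TV1 (σ : GQ) (i : J M) : Commute (rho1 D σ) (TV1 D i) := by
  show rho1 D σ * TV1 D i = TV1 D i * rho1 D σ
  ext v
  show σ • D.TV i (v : D.V) = D.TV i (σ • (v : D.V))
  rw [Span_TV_smul]

/-- `FreeAlgebra.induction`. -/
theorem coe_lift_TV1 (P : FreeAlgebra ℤ (J M)) (v : V1 D) :
    ((FreeAlgebra.lift ℤ (TV1 D) P v : V1 D) : D.V) = FreeAlgebra.lift ℤ D.TV P v := by
  induction P using FreeAlgebra.induction generalizing v with
  | grade0 r =>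
    rw [AlgHom.commutes, AlgHom.commutes]
    show (((r : AddMonoid.End (V1 D)) v : V1 D) : D.V) = (r : AddMonoid.End D.V) (v : D.V)
    rw [AddMonoid.End.intCast_apply, AddMonoid.End.intCast_apply]
    rfl
  | grade1 i =>
    rw [FreeAlgebra.lift_ι_apply, FreeAlgebra.lift_ι_apply]
    rfl
  | mul a b ha hb =>
    rw [map_mul, map_mul]
    show ((FreeAlgebra.lift ℤ (TV1 D) a (FreeAlgebra.lift ℤ (TV1 D) b v) : V1 D) : D.V) =
      FreeAlgebra.lift ℤ D.TV a (FreeAlgebra.lift ℤ D.TV b (v : D.V))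
    rw [ha, hb]
  | add a b ha hb =>
    rw [map_add, map_add]
    show ((FreeAlgebra.lift ℤ (TV1 D) a v + FreeAlgebra.lift ℤ (TV1 D) b v : V1 D) : D.V) =
      FreeAlgebra.lift ℤ D.TV a (v : D.V) + FreeAlgebra.lift ℤ D.TV b (v : D.V)
    rw [AddSubgroup.coe_add, ha, hb]

theorem tors1 (v : V1 D) : ℓ • v = 0 := Subtype.ext (D.torsion v)

/-- `V` is finite: take the compositum of the fields `D.stab x`. -/
theorem rho1_level : GaloisFactorsThroughFiniteLevel (rho1 D) := by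
  choose F hF hfix using D.stab
  haveI : ∀ x, FiniteDimensional ℚ (F x) := hF
  refine ⟨⨆ x, F x, IntermediateField.finiteDimensional_iSup_of_finite, fun σ hσ => ?_⟩
  ext v
  show σ • (v : D.V) = v
  exact hfix v σ fun y hy => hσ y (le_iSup F (v : D.V) hy)

theorem rho1_unram (p : GoodPrime M) (hp : p.1 ≠ ℓ)
    (A : ValuationSubring (AlgebraicClosure ℚ)) (hA : A.LiesOverPrime p.1) (σ : GQ)
    (hσ : σ ∈ A.inertiaSubgroupIn ℚ) : rho1 D σ = 1 := by
  ext v
  show σ • (v : D.V) = v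
  exact D.unram p hp A hA σ hσ v

theorem rho1_ES (p : GoodPrime M) (hp : p.1 ≠ ℓ)
    (A : ValuationSubring (AlgebraicClosure ℚ)) (hA : A.LiesOverPrime p.1) (σ : GQ)
    (hσ : A.IsFrobeniusAt σ p.1) :
    rho1 D σ * rho1 D σ - TV1 D (Sum.inl p) * rho1 D σ + p.1 • TV1 D (Sum.inr p) = 0 := by
  ext v
  show σ • σ • (v : D.V) - D.T p (σ • (v : D.V)) + p.1 • D.R p (v : D.V) = 0
  exact D.ES p hp A hA σ hσ v

end Fermat.Agent.S48.ModL
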