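import Fermat.Agent.S48.ModL.Lattice
import Fermat.Agent.S48.ModL.Span
import Fermat.Agent.S48.ModL.Eigen
import Fermat.Agent.S48.ModL.LevelRaise
import Fermat.Agent.S48.ModL.CycloM
import Fermat.Agent.S48.ModL.Glue
import Fermat.Agent.Lib.FrobDensity.GALInterface

set_option autoImplicit false

/-!
# S48 / ModL : `StmtGeo → StmtModL2`
-/

noncomputable section

namespace Fermat.Agent.S48.ModL

open Polynomial HK

variable {κ : Type} [Field κ]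

theorem not_dvd_of_not_mem_primeFactors {n p : ℕ} (hn : n ≠ 0) (hp : p.Prime)
    (h : p ∉ n.primeFactors) : ¬ p ∣ n := fun hd => h (Nat.mem_primeFactors.2 ⟨hp, hd, hn⟩)

theorem exists_frobSys1 {M' ℓ : ℕ} [NeZero M'] (hℓ : ℓ.Prime) [CharP κ ℓ] (D : ESDatum1 M' ℓ)
    {θ : Idx M' → κ} (hθ : Occurs M' 2 θ) :
    ∃ S : FrobSys1 κ (aOf θ) (eOf θ), S.B = (M' * ℓ).primeFactors := by
  have hne : M' * ℓ ≠ 0 := mul_ne_zero (NeZero.ne M') hℓ.ne_zero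
  obtain ⟨E, i1, i2, i3, i4, r, ha, hb⟩ := exists_eigen_quotient hℓ (tors1 D) (TV1 D) (TV1_comm D)
    (rho1 D) (rho1_TV1 D) (θ ∘ jMap) (by
      intro P hP
      refine occ D P (fun x => ?_) θ hθ
      have := coe_lift_TV1 D P ⟨D.e x, e_mem_V1 D x⟩
      rw [hP] at this
      exact this.symm)
  refine ⟨{ E := E, r := r, level := ?_, B := (M' * ℓ).primeFactors, unram := ?_, frob := ?_ }, rfl⟩
  · obtain ⟨L, hL, h⟩ := rho1_level D
    exact ⟨L, hL, fun σ hσ => ha σ (h σ hσ)⟩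
  · intro p hp hB A hA σ hσ
    have hnd := not_dvd_of_not_mem_primeFactors hne hp hB
    have hpM : ¬ p ∣ M' := fun h => hnd (h.mul_right ℓ)
    have hpl : p ≠ ℓ := fun h => hnd (h ▸ Dvd.intro_left M' rfl)
    exact ha σ (rho1_unram D ⟨p, hp, hpM⟩ hpl A hA σ hσ)
  · intro p hp hB A hA σ hσ
    have hnd := not_dvd_of_not_mem_primeFactors hne hp hB
    have hpM : ¬ p ∣ M' := fun h => hnd (h.mul_right ℓ)
    have hpl : p ≠ ℓ := fun h => hnd (h ▸ Dvd.intro_left M' rfl)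
    have h1 := hb σ (Sum.inl ⟨p, hp, hpM⟩) (Sum.inr ⟨p, hp, hpM⟩) p
      (rho1_ES D ⟨p, hp, hpM⟩ hpl A hA σ hσ)
    have h2 : aOf θ p = (θ ∘ jMap) (Sum.inl ⟨p, hp, hpM⟩) := aOf_good θ ⟨p, hp, hpM⟩
    have h3 : eOf θ p = (p : κ) * (θ ∘ jMap) (Sum.inr ⟨p, hp, hpM⟩) := eOf_good θ ⟨p, hp, hpM⟩
    rw [h2, h3]
    exact h1

theorem aOf_comp_idxMap {M M' : ℕ} [NeZero M] [NeZero M'] (h : M ∣ M') (θ : Idx M → κ) {p : ℕ}
    (hp : p.Prime) (hpM : ¬ p ∣ M') : aOf (θ ∘ idxMap h) p = aOf θ p := by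
  have hpM0 : ¬ p ∣ M := fun hd => hpM (hd.trans h)
  rw [show p = (⟨p, hp, hpM⟩ : GoodPrime M').1 from rfl, aOf_good]
  exact (aOf_good θ ⟨p, hp, hpM0⟩).symm

theorem eOf_comp_idxMap {M M' : ℕ} [NeZero M] [NeZero M'] (h : M ∣ M') (θ : Idx M → κ) {p : ℕ}
    (hp : p.Prime) (hpM : ¬ p ∣ M') : eOf (θ ∘ idxMap h) p = eOf θ p := by
  have hpM0 : ¬ p ∣ M := fun hd => hpM (hd.trans h)
  have h1 := eOf_good (θ ∘ idxMap h) ⟨p, hp, hpM⟩
  have h2 := eOf_good θ ⟨p, hp, hpM0⟩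
  have h3 : idxMap h (Sum.inr (GoodPrime.unit (⟨p, hp, hpM⟩ : GoodPrime M'))) =
      Sum.inr (GoodPrime.unit (⟨p, hp, hpM0⟩ : GoodPrime M)) := by
    unfold idxMap
    rw [Sum.map_inr]
    congr 1
    apply Units.ext
    rw [ZMod.unitsMap_val, GoodPrime.coe_unit, GoodPrime.coe_unit]
    haveI : CharP (ZMod M) M := ZMod.charP M
    exact ZMod.cast_natCast h (R := ZMod M) p
  change eOf (θ ∘ idxMap h) p = _ at h1
  change eOf θ p = _ at h2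
  rw [h1, h2, Function.comp_apply, h3]


/-- change of the functions `a`, `e` outside the bad set. -/
def FrobSys1.congr {a e a' e' : ℕ → κ} (S : FrobSys1 κ a e)
    (h : ∀ p : ℕ, p.Prime → p ∉ S.B → a p = a' p ∧ e p = e' p) : FrobSys1 κ a' e' where
  E := S.E
  r := S.r
  level := S.level
  B := S.B
  unram := S.unram
  frob := fun p hp hB A hA σ hσ => by
    rw [← (h p hp hB).1, ← (h p hp hB).2]
    exact S.frob p hp hB A hA σ hσ

theorem exists_frobSys1_of_dvd (hG : StmtGeo) {M M' ℓ : ℕ} [NeZero M] [NeZero M'] (h : M ∣ M')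
    (hneat : 4 ∣ M' ∨ 9 ∣ M') (hℓ : ℓ.Prime)
    (h5 : 5 ≤ ℓ) [CharP κ ℓ] {θ : Idx M → κ} (hθ : Occurs M 2 θ) :
    ∃ S : FrobSys1 κ (aOf θ) (eOf θ), S.B = (M' * ℓ).primeFactors := by
  obtain ⟨D⟩ := hG M' ℓ hneat hℓ h5
  obtain ⟨S, hS⟩ := exists_frobSys1 hℓ D (Occurs.raise h hθ)
  have hne : M' * ℓ ≠ 0 := mul_ne_zero (NeZero.ne M') hℓ.ne_zero
  refine ⟨S.congr (fun p hp hB => ?_), hS⟩
  rw [hS] at hB
  have hnd := not_dvd_of_not_mem_primeFactors hne hp hB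
  have hpM : ¬ p ∣ M' := fun h => hnd (h.mul_right ℓ)
  exact ⟨aOf_comp_idxMap h θ hp hpM, eOf_comp_idxMap h θ hp hpM⟩

theorem exists_frobSys1_avoiding (hG : StmtGeo) {M ℓ : ℕ} [NeZero M] (hℓ : ℓ.Prime)
    (h5 : 5 ≤ ℓ) [CharP κ ℓ] {θ : Idx M → κ} (hθ : Occurs M 2 θ) {q : ℕ} (hq : q.Prime)
    (hqM : ¬ q ∣ M * ℓ) : ∃ S : FrobSys1 κ (aOf θ) (eOf θ), q ∉ S.B := by
  have hM : M ≠ 0 := NeZero.ne M
  by_cases hq2 : q = 2
  · haveI : NeZero (9 * M) := ⟨mul_ne_zero (by norm_num) hM⟩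
    obtain ⟨S, hS⟩ := exists_frobSys1_of_dvd hG (M' := 9 * M) (Dvd.intro_left 9 rfl)
      (Or.inr (Dvd.intro M rfl)) hℓ h5 hθ
    refine ⟨S, ?_⟩
    rw [hS]
    intro hmem
    have hd := (Nat.mem_primeFactors.1 hmem).2.1
    rw [mul_assoc] at hd
    rcases (Nat.Prime.dvd_mul hq).1 hd with h | h
    · subst hq2
      norm_num at h
    · exact hqM h
  · haveI : NeZero (4 * M) := ⟨mul_ne_zero (by norm_num) hM⟩
    obtain ⟨S, hS⟩ := exists_frobSys1_of_dvd hG (M' := 4 * M) (Dvd.intro_left 4 rfl)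
      (Or.inl (Dvd.intro M rfl)) hℓ h5 hθ
    refine ⟨S, ?_⟩
    rw [hS]
    intro hmem
    have hd := (Nat.mem_primeFactors.1 hmem).2.1
    rw [mul_assoc] at hd
    rcases (Nat.Prime.dvd_mul hq).1 hd with h | h
    · have h4 : q ∣ 2 ^ 2 := by norm_num; exact h
      exact hq2 ((Nat.prime_dvd_prime_iff_eq hq Nat.prime_two).1 (hq.dvd_of_dvd_pow h4))
    · exact hqM h

theorem stmtModL2_of_geo (hG : StmtGeo) : StmtModL2 := by
  intro M ℓ _ hℓ h5 κ _ _ _ θ hθ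
  have hne : M * ℓ ≠ 0 := mul_ne_zero (NeZero.ne M) hℓ.ne_zero
  obtain ⟨d, hdlevel, hd⟩ := exists_detChar hℓ hθ
  obtain ⟨q0, hq0, hq0p⟩ := Nat.exists_infinite_primes (M * ℓ + 1)
  have hq0N : ¬ q0 ∣ M * ℓ := fun h => by
    have := Nat.le_of_dvd (Nat.pos_of_ne_zero hne) h
    omega
  obtain ⟨S0, -⟩ := exists_frobSys1_avoiding hG hℓ h5 hθ hq0p hq0N
  obtain ⟨ρ, hker, hchar, hunr⟩ := exists_residual_of_frobSys1
    Fermat.Agent.Lib.FrobDensity.gal_frobeniusDensity d hdlevel (M * ℓ).primeFactors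
    (fun p hp hB A hA => (hd p hp (not_dvd_of_not_mem_primeFactors hne hp hB) A hA).1)
    (fun p hp hB A hA => (hd p hp (not_dvd_of_not_mem_primeFactors hne hp hB) A hA).2)
    S0 (fun q hq hB => exists_frobSys1_avoiding hG hℓ h5 hθ hq
      (not_dvd_of_not_mem_primeFactors hne hq hB))
  refine ⟨ρ, hker, fun p hpl => ?_⟩
  have hB : p.1 ∉ (M * ℓ).primeFactors := by
    intro hmem
    have hdv := (Nat.mem_primeFactors.1 hmem).2.1
    rcases (Nat.Prime.dvd_mul p.2.1).1 hdv with h | h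
    · exact p.2.2 h
    · exact hpl ((Nat.prime_dvd_prime_iff_eq p.2.1 hℓ).1 h)
  refine ⟨hunr p.1 p.2.1 hB, fun A hA σ hσ => ?_⟩
  rw [hchar p.1 p.2.1 hB A hA σ hσ, aOf_good, eOf_good]

end Fermat.Agent.S48.ModL
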