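import Fermat.Agent.S48.ModL2.Datum

set_option autoImplicit false

/-!
# S48 / ModL : definitions for the algebra `StmtGeo → StmtModL2`

The target of the geometric blocks is `ESDatum1 M ℓ` / `StmtGeo` (`S48/ModL2/Datum.lean`).
`ModL/Main.lean` proves `StmtGeo → StmtModL2`.
-/

noncomputable section

namespace Fermat.Agent.S48.ModL

open CongruenceSubgroup HK

/-- index set of the operators of an `ESDatum1`: `inl p ↔ T_p`, `inr p ↔ ⟨p⟩`. -/
abbrev J (M : ℕ) : Type := GoodPrime M ⊕ GoodPrime M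

/-- the corresponding generators of the Hecke algebra. -/
def jMap {M : ℕ} [NeZero M] : J M → Idx M := Sum.elim Sum.inl (fun p => Sum.inr p.unit)

/-- substitution of generators. -/
def jPoly {M : ℕ} [NeZero M] : FreeAlgebra ℤ (J M) →ₐ[ℤ] FreeAlgebra ℤ (Idx M) :=
  FreeAlgebra.lift ℤ (fun i => FreeAlgebra.ι ℤ (jMap i))

variable {M ℓ : ℕ} [NeZero M]

/-- the operators on the lattice. -/
def _root_.Fermat.Agent.S48.ESDatum1.TL (D : ESDatum1 M ℓ) : J M → Matrix (Fin D.r) (Fin D.r) ℤ :=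
  Sum.elim D.TΛ D.RΛ

/-- the operators on `V`. -/
def _root_.Fermat.Agent.S48.ESDatum1.TV (D : ESDatum1 M ℓ) : J M → AddMonoid.End D.V :=
  Sum.elim D.T D.R

/-- the Galois action on `V`. -/
def _root_.Fermat.Agent.S48.ESDatum1.rho (D : ESDatum1 M ℓ) : GQ →* AddMonoid.End D.V :=
  DistribMulAction.toAddMonoidEnd GQ D.V

theorem _root_.Fermat.Agent.S48.ESDatum1.rho_apply (D : ESDatum1 M ℓ) (σ : GQ) (x : D.V) :
    D.rho σ x = σ • x := rfl

/-- A "Frobenius system" over `κ`: a nonzero finite dimensional representation of `G_ℚ` factoring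
through a finite quotient, unramified outside the finite set `B`, in which the Frobenius elements
at `p ∉ B` satisfy `σ² - a p σ + e p = 0`. -/
structure FrobSys1 (κ : Type) [Field κ] (a e : ℕ → κ) where
  E : Type
  [instAddCommGroup : AddCommGroup E]
  [instModule : Module κ E]
  [instFinite : Module.Finite κ E]
  [instNontrivial : Nontrivial E]
  r : GQ →* Module.End κ E
  level : GaloisFactorsThroughFiniteLevel r
  B : Finset ℕ
  unram : ∀ p : ℕ, p.Prime → p ∉ B →
    ∀ A : ValuationSubring (AlgebraicClosure ℚ), A.LiesOverPrime p →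
      ∀ σ ∈ A.inertiaSubgroupIn ℚ, r σ = 1
  frob : ∀ p : ℕ, p.Prime → p ∉ B →
    ∀ A : ValuationSubring (AlgebraicClosure ℚ), A.LiesOverPrime p →
      ∀ σ : GQ, A.IsFrobeniusAt σ p →
        r σ * r σ - a p • r σ + e p • (1 : Module.End κ E) = 0

attribute [instance] FrobSys1.instAddCommGroup FrobSys1.instModule FrobSys1.instFinite
  FrobSys1.instNontrivial

open Classical in
/-- `p ↦ θ(T_p)` as a function on `ℕ`. -/
def aOf {M : ℕ} {κ : Type} [Field κ] (θ : Idx M → κ) (p : ℕ) : κ :=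
  if h : p.Prime ∧ ¬ p ∣ M then θ (Sum.inl ⟨p, h⟩) else 0

open Classical in
/-- `p ↦ p θ(⟨p⟩)` as a function on `ℕ`. -/
def eOf {M : ℕ} {κ : Type} [Field κ] (θ : Idx M → κ) (p : ℕ) : κ :=
  if h : p.Prime ∧ ¬ p ∣ M then (p : κ) * θ (Sum.inr (GoodPrime.unit ⟨p, h⟩)) else 0

theorem aOf_good {M : ℕ} {κ : Type} [Field κ] (θ : Idx M → κ) (p : GoodPrime M) :
    aOf θ p.1 = θ (Sum.inl p) := by
  unfold aOf
  rw [dif_pos p.2]

theorem eOf_good {M : ℕ} {κ : Type} [Field κ] (θ : Idx M → κ) (p : GoodPrime M) :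
    eOf θ p.1 = (p.1 : κ) * θ (Sum.inr p.unit) := by
  unfold eOf
  rw [dif_pos p.2]

end Fermat.Agent.S48.ModL
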