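import Fermat.Agent.S48.ModL.Defs

set_option autoImplicit false

/-!
# S48 / ModL : a polynomial in the Hecke operators killing `e(lattice) ⊆ V` vanishes at every
eigensystem of characteristic `ℓ` occurring in `S₂(Γ₁(M))`
-/

noncomputable section

namespace Fermat.Agent.S48.ModL

open CongruenceSubgroup HK

variable {M ℓ : ℕ} [NeZero M]

/-- equivariance of `per` for polynomials (`FreeAlgebra.induction`). -/
theorem per_poly (D : ESDatum1 M ℓ) (P : FreeAlgebra ℤ (J M)) (f : CuspForm (Gamma1 M) 2) :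
    D.per (opPoly 2 (jPoly P) f) =
      ((FreeAlgebra.lift ℤ D.TL P).map (Int.castRingHom ℂ)).mulVec (D.per f) := by
  revert f
  induction P using FreeAlgebra.induction with
  | grade0 r =>
    intro f
    rw [AlgHom.commutes, AlgHom.commutes, AlgHom.commutes, eq_intCast, eq_intCast,
      Module.End.intCast_apply, map_zsmul, ← RingHom.mapMatrix_apply, map_intCast,
      Matrix.intCast_mulVec, Int.cast_smul_eq_zsmul]
  | grade1 i =>
    intro f
    rcases i with p | p
    · simpa [jPoly, opPoly, jMap, op, ESDatum1.TL] using D.per_T p f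
    · simpa [jPoly, opPoly, jMap, op, ESDatum1.TL] using D.per_R p f
  | mul a b ha hb =>
    intro f
    rw [map_mul, map_mul, Module.End.mul_apply, ha, hb, map_mul, Matrix.map_mul,
      Matrix.mulVec_mulVec]
  | add a b ha hb =>
    intro f
    rw [map_add, map_add, LinearMap.add_apply, map_add, ha, hb, map_add, Matrix.map_add _ (by simp),
      Matrix.add_mulVec]

/-- equivariance of `e` for polynomials (`FreeAlgebra.induction`). -/
theorem e_poly (D : ESDatum1 M ℓ) (P : FreeAlgebra ℤ (J M)) (x : Fin D.r → ZMod ℓ) :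
    D.e (((FreeAlgebra.lift ℤ D.TL P).map (Int.castRingHom (ZMod ℓ))).mulVec x) =
      FreeAlgebra.lift ℤ D.TV P (D.e x) := by
  revert x
  induction P using FreeAlgebra.induction with
  | grade0 r =>
    intro x
    rw [AlgHom.commutes, AlgHom.commutes, eq_intCast, eq_intCast,
      ← RingHom.mapMatrix_apply, map_intCast,
      Matrix.intCast_mulVec, Int.cast_smul_eq_zsmul, map_zsmul]
    simp
  | grade1 i =>
    intro x
    rcases i with p | p
    · rw [FreeAlgebra.lift_ι_apply, FreeAlgebra.lift_ι_apply]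
      exact D.e_T p x
    · rw [FreeAlgebra.lift_ι_apply, FreeAlgebra.lift_ι_apply]
      exact D.e_R p x
  | mul a b ha hb =>
    intro x
    rw [map_mul, map_mul, Matrix.map_mul, ← Matrix.mulVec_mulVec, ha, hb]
    rfl
  | add a b ha hb =>
    intro x
    rw [map_add, map_add, Matrix.map_add _ (by simp), Matrix.add_mulVec, map_add, ha, hb]
    rfl

/-- pure algebra: if `X = ℓ S` in `M_r(ℤ)` then `X^r + ∑_{k<r} ℓ c_k X^k = 0`: multiply
Cayley-Hamilton for `S` (`Matrix.aeval_self_charpoly`) by `ℓ^r`. -/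
theorem exists_monic_rel {r : ℕ} (ℓ : ℕ) (X S : Matrix (Fin r) (Fin r) ℤ) (h : X = (ℓ : ℤ) • S) :
    ∃ c : ℕ → ℤ, X ^ r + ∑ k ∈ Finset.range r, ((ℓ : ℤ) * c k) • X ^ k = 0 := by
  have h1 := Matrix.aeval_self_charpoly S
  rw [Polynomial.aeval_eq_sum_range, Matrix.charpoly_natDegree_eq_dim, Fintype.card_fin,
    Finset.sum_range_succ] at h1
  have h2 : S.charpoly.coeff r = 1 := by
    have := (Matrix.charpoly_monic S).coeff_natDegree
    rwa [Matrix.charpoly_natDegree_eq_dim, Fintype.card_fin] at this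
  rw [h2, one_smul] at h1
  refine ⟨fun k => S.charpoly.coeff k * (ℓ : ℤ) ^ (r - k - 1), ?_⟩
  have h3 : X ^ r + ∑ k ∈ Finset.range r,
      ((ℓ : ℤ) * (S.charpoly.coeff k * (ℓ : ℤ) ^ (r - k - 1))) • X ^ k =
      ((ℓ : ℤ) ^ r) • (∑ k ∈ Finset.range r, S.charpoly.coeff k • S ^ k + S ^ r) := by
    rw [smul_add, Finset.smul_sum, add_comm, h, smul_pow]
    congr 1
    refine Finset.sum_congr rfl fun k hk => ?_
    have hk' : k < r := Finset.mem_range.1 hk
    rw [smul_pow, smul_smul, smul_smul]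
    congr 1
    have h4 : (ℓ : ℤ) ^ r = (ℓ : ℤ) ^ (r - k - 1) * ℓ * (ℓ : ℤ) ^ k := by
      rw [← pow_succ, ← pow_add]
      congr 1
      omega
    rw [h4]
    ring
  rw [h3, h1, smul_zero]

theorem lift_comp_jMap {κ : Type*} [CommRing κ] (θ : Idx M → κ) (P : FreeAlgebra ℤ (J M)) :
    FreeAlgebra.lift ℤ θ (jPoly P) = FreeAlgebra.lift ℤ (θ ∘ jMap) P := by
  have h : (FreeAlgebra.lift ℤ θ).comp jPoly = FreeAlgebra.lift ℤ (θ ∘ jMap) := by
    apply FreeAlgebra.hom_ext
    funext i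
    simp [jPoly]
  exact DFunLike.congr_fun h P

/-- **Key property.**  `P(TV) = 0` on `e(lattice)` `⟹ P(TL) ≡ 0 mod ℓ` (`e_poly`, `e_injective`)
`⟹ P(TL) = ℓ S ⟹ Q := P^r + ∑_{k<r} ℓ c_k P^k` kills `ℤ^r` (`exists_monic_rel`) `⟹ jPoly Q` kills
`S₂(Γ₁(M))` (`per_poly`, `per_injective`) `⟹ θ(Q) = 0 ⟹ θ(P)^r = 0 ⟹ θ(P) = 0`. -/
theorem occ (D : ESDatum1 M ℓ) (P : FreeAlgebra ℤ (J M))
    (hP : ∀ x : Fin D.r → ZMod ℓ, FreeAlgebra.lift ℤ D.TV P (D.e x) = 0)
    {κ : Type} [Field κ] [CharP κ ℓ] (θ : Idx M → κ)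
    (hθ : Occurs M 2 θ) : FreeAlgebra.lift ℤ (θ ∘ jMap) P = 0 := by
  set X := FreeAlgebra.lift ℤ D.TL P with hX
  have h1 : X.map (Int.castRingHom (ZMod ℓ)) = 0 := by
    apply Matrix.toLin'.injective
    apply LinearMap.ext
    intro x
    rw [Matrix.toLin'_apply, map_zero, LinearMap.zero_apply]
    apply D.e_injective
    rw [e_poly, hP, map_zero]
  have h2 : ∀ i j, (ℓ : ℤ) ∣ X i j := by
    intro i j
    have := congrFun (congrFun h1 i) j
    rw [Matrix.map_apply, Matrix.zero_apply, eq_intCast] at this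
    exact (ZMod.intCast_zmod_eq_zero_iff_dvd _ _).1 this
  choose S hS using h2
  obtain ⟨c, hc⟩ := exists_monic_rel ℓ X (Matrix.of S) (by
    ext i j
    rw [hS i j]
    simp)
  set Q : FreeAlgebra ℤ (J M) := P ^ D.r + ∑ k ∈ Finset.range D.r, ((ℓ : ℤ) * c k) • P ^ k with hQ
  have h3 : FreeAlgebra.lift ℤ D.TL Q = 0 := by
    rw [hQ, map_add, map_pow, map_sum, ← hc]
    congr 1
    refine Finset.sum_congr rfl fun k _ => ?_
    rw [map_smul, map_pow]
  have h4 : opPoly (M := M) 2 (jPoly Q) = 0 := by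
    apply LinearMap.ext
    intro f
    apply D.per_injective
    rw [per_poly, h3, LinearMap.zero_apply, map_zero]
    simp
  have h5 := hθ _ h4
  rw [lift_comp_jMap, hQ, map_add, map_pow, map_sum, Finset.sum_eq_zero, add_zero] at h5
  · exact eq_zero_of_pow_eq_zero h5
  · intro k _
    rw [map_smul, zsmul_eq_mul, Int.cast_mul, Int.cast_natCast, CharP.cast_eq_zero, zero_mul,
      zero_mul]

end Fermat.Agent.S48.ModL
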